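/-
Shared bridge (c), number-field end (owner: helper80).

For a finite Galois number field `M/ℚ`:
* `not_dvd_discr_of_inertia_trivial`: if the inertia subgroup (Prelude `inertiaSubgroupIn`) of
  every valuation subring of `M` lying over the prime `q` is trivial, then `q ∤ discr M`;
* `finrank_eq_one_of_inertia_trivial`: if this holds for every prime `q`, then `M = ℚ`
  (Hermite–Minkowski, `NumberField.abs_discr_gt_two`).

Ingredients: `NumberField.not_dvd_discr_iff_forall_liesOver`, `Ideal.ramificationIdx_eq_one_iff`,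
`Ideal.card_inertia_eq_ramificationIdxIn`, and the localisation of the ring of integers at a prime
as a valuation subring (`Lib/Frobenius`).
-/
import Mathlib
import Fermat.Prelude.Def_FLTPrelim_Ramification
import Fermat.Prelude.Def_EllipticCurve_FrobeniusTrace
import Fermat.Agent.Lib.Frobenius

set_option autoImplicit false

open NumberField
open scoped Pointwise

namespace Fermat.Agent.Lib.Ram.Minkowski

variable (M : Type*) [Field M] [NumberField M]

/-- A number field of degree `> 1` has a ramified prime. -/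
theorem exists_isMaximal_not_isUnramifiedAt (h : 1 < Module.finrank ℚ M) :
    ∃ (p : ℕ) (_ : p.Prime) (P : Ideal (𝓞 M)) (_ : P.IsMaximal),
      P.LiesOver (Ideal.span {(p : ℤ)}) ∧ ¬ Algebra.IsUnramifiedAt ℤ P := by
  have hd := abs_discr_gt_two h
  have hne : (discr M).natAbs ≠ 1 := by
    intro h1
    have : |discr M| = 1 := by
      rw [Int.abs_eq_natAbs, h1]; rfl
    omega
  obtain ⟨p, hp, hpd⟩ := Nat.exists_prime_and_dvd hne
  have hpz : Prime (p : ℤ) := Nat.prime_iff_prime_int.mp hp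
  have hdvd : (p : ℤ) ∣ discr M := Int.natCast_dvd.mpr hpd
  have := (not_dvd_discr_iff_forall_liesOver M (𝓞 M) hpz).not.mp (not_not.mpr hdvd)
  push Not at this
  obtain ⟨P, hP, hPp, hunr⟩ := this
  exact ⟨p, hp, P, hP, hPp, hunr⟩

/-- In the Galois case a ramified prime has a nontrivial (ideal-theoretic) inertia group. -/
theorem exists_mem_inertia_ne_one [IsGalois ℚ M] (p : ℕ) (hp : p.Prime) (P : Ideal (𝓞 M))
    [hP : P.IsMaximal] [hPp : P.LiesOver (Ideal.span {(p : ℤ)})]
    (hunr : ¬ Algebra.IsUnramifiedAt ℤ P) :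
    ∃ τ : M ≃ₐ[ℚ] M, τ ≠ 1 ∧ ∀ x : 𝓞 M, τ • x - x ∈ P := by
  have hpz : Prime (p : ℤ) := Nat.prime_iff_prime_int.mp hp
  have : (Ideal.span {(p : ℤ)}).IsPrime :=
    (Ideal.span_singleton_prime hpz.ne_zero).mpr hpz
  have : (Ideal.span {(p : ℤ)}).IsMaximal :=
    PrincipalIdealRing.isMaximal_of_irreducible hpz.irreducible
  have : PerfectField (P.under ℤ).ResidueField := inferInstance
  have he : P.ramificationIdx ℤ ≠ 1 := fun h => hunr (Ideal.ramificationIdx_eq_one_iff.mp h)
  have hcard := Ideal.card_inertia_eq_ramificationIdxIn (G := M ≃ₐ[ℚ] M) (Ideal.span {(p : ℤ)}) P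
  rw [Ideal.ramificationIdxIn_eq_ramificationIdx (Ideal.span {(p : ℤ)}) P (M ≃ₐ[ℚ] M)] at hcard
  have hnt : Nat.card (Ideal.inertia (M ≃ₐ[ℚ] M) P) ≠ 1 := by rw [hcard]; exact he
  have : Nontrivial (Ideal.inertia (M ≃ₐ[ℚ] M) P) := by
    by_contra hsub
    rw [not_nontrivial_iff_subsingleton] at hsub
    exact hnt (Nat.card_unique)
  obtain ⟨⟨τ, hτ⟩, hne⟩ := exists_ne (1 : Ideal.inertia (M ≃ₐ[ℚ] M) P)
  refine ⟨τ, fun h => hne (Subtype.ext h), fun x => ?_⟩
  exact hτ x

/-- An element of the (ideal-theoretic) inertia group of a prime `P` over `p` lies in the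
inertia subgroup of a valuation subring of `M` lying over `p`. -/
theorem exists_valuationSubring_mem_inertiaSubgroupIn (p : ℕ) (hp : p.Prime)
    (P : Ideal (𝓞 M)) [hP : P.IsPrime] (hpP : ((p : ℤ) : 𝓞 M) ∈ P)
    (τ : M ≃ₐ[ℚ] M) (hτ : ∀ x : 𝓞 M, τ • x - x ∈ P) :
    ∃ B : ValuationSubring M, B.LiesOverPrime p ∧ τ ∈ B.inertiaSubgroupIn ℚ := by
  have : Algebra.IsAlgebraic ℚ M := Algebra.IsAlgebraic.of_finite ℚ M
  let Q : Ideal (integralClosure ℤ M) := P
  have hQprime : Q.IsPrime := hP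
  obtain ⟨B, hB⟩ := Fermat.Agent.Lib.Frobenius.exists_valuationSubring Q p hp hpP
  have hτQ : τ • Q = Q := by
    have hmem : τ ∈ Ideal.inertia (M ≃ₐ[ℚ] M) P := hτ
    exact Ideal.inertia_le_stabilizer P hmem
  have hfrob := Fermat.Agent.Lib.Frobenius.isFrobeniusAt_of_fractions B Q hB 1 τ hτQ
    (fun b => by rw [pow_one]; exact hτ b)
  obtain ⟨hdec, hx⟩ := hfrob
  refine ⟨B, ?_, ?_⟩
  · have := Fermat.Agent.Lib.Frobenius.coe_mem_nonunits_of_fractions B Q hB
      (((p : ℤ) : integralClosure ℤ M)) hpP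
    simpa [ValuationSubring.LiesOverPrime] using this
  · refine ⟨⟨τ, hdec⟩, ?_, rfl⟩
    change (⟨τ, hdec⟩ : B.decompositionSubgroup ℚ) ∈ MonoidHom.ker _
    rw [MonoidHom.mem_ker]
    ext x
    simpa using hx x

/-- If a prime `q` ramifies in the Galois number field `M`, some valuation subring of `M` over `q`
has a nontrivial element in its inertia subgroup. -/
theorem exists_inertiaSubgroupIn_ne_one_of_dvd_discr [IsGalois ℚ M] (q : ℕ) (hq : q.Prime)
    (hdvd : (q : ℤ) ∣ discr M) :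
    ∃ (B : ValuationSubring M) (τ : M ≃ₐ[ℚ] M),
      B.LiesOverPrime q ∧ τ ∈ B.inertiaSubgroupIn ℚ ∧ τ ≠ 1 := by
  have hqz : Prime (q : ℤ) := Nat.prime_iff_prime_int.mp hq
  have := (not_dvd_discr_iff_forall_liesOver M (𝓞 M) hqz).not.mp (not_not.mpr hdvd)
  push Not at this
  obtain ⟨P, hP, hPq, hunr⟩ := this
  obtain ⟨τ, hτ1, hτ⟩ := exists_mem_inertia_ne_one M q hq P hunr
  have hqP : ((q : ℤ) : 𝓞 M) ∈ P := by
    have h1 : (q : ℤ) ∈ P.under ℤ := by
      rw [← hPq.over]; exact Ideal.mem_span_singleton_self _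
    simpa [Ideal.under, Ideal.mem_comap] using h1
  obtain ⟨B, hB, hτB⟩ := exists_valuationSubring_mem_inertiaSubgroupIn M q hq P hqP τ hτ
  exact ⟨B, τ, hB, hτB, hτ1⟩

/-- **Unramifiedness criterion.** If every valuation subring of the Galois number field `M`
lying over `q` has trivial inertia subgroup, then `q` does not divide the discriminant of `M`. -/
theorem not_dvd_discr_of_inertia_trivial [IsGalois ℚ M] (q : ℕ) (hq : q.Prime)
    (h : ∀ B : ValuationSubring M, B.LiesOverPrime q →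
      ∀ τ ∈ B.inertiaSubgroupIn ℚ, τ = 1) :
    ¬ (q : ℤ) ∣ discr M := by
  intro hdvd
  obtain ⟨B, τ, hB, hτB, hτ1⟩ := exists_inertiaSubgroupIn_ne_one_of_dvd_discr M q hq hdvd
  exact hτ1 (h B hB τ hτB)

/-- **Hermite–Minkowski bridge.** A finite Galois extension `M/ℚ` all of whose inertia subgroups
(at all valuation subrings lying over primes) are trivial is `ℚ` itself. -/
theorem finrank_eq_one_of_forall_inertia_eq_one [IsGalois ℚ M]
    (h : ∀ q : ℕ, q.Prime → ∀ B : ValuationSubring M, B.LiesOverPrime q →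
      ∀ τ ∈ B.inertiaSubgroupIn ℚ, τ = 1) :
    Module.finrank ℚ M = 1 := by
  by_contra hne
  have hpos : 0 < Module.finrank ℚ M := Module.finrank_pos
  have h1 : 1 < Module.finrank ℚ M := by omega
  obtain ⟨p, hp, P, hP, hPp, hunr⟩ := exists_isMaximal_not_isUnramifiedAt M h1
  have hpz : Prime (p : ℤ) := Nat.prime_iff_prime_int.mp hp
  refine not_dvd_discr_of_inertia_trivial M p hp (h p hp) ?_
  by_contra hnd
  exact hunr ((not_dvd_discr_iff_forall_liesOver M (𝓞 M) hpz).mp hnd P hP hPp)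

/-- Same statement with the hypothesis phrased as `inertiaSubgroupIn = ⊥`. -/
theorem finrank_eq_one_of_inertia_trivial [IsGalois ℚ M]
    (h : ∀ q : ℕ, q.Prime → ∀ B : ValuationSubring M, B.LiesOverPrime q →
      B.inertiaSubgroupIn ℚ = ⊥) :
    Module.finrank ℚ M = 1 :=
  finrank_eq_one_of_forall_inertia_eq_one M fun q hq B hB τ hτ => by
    rw [h q hq B hB] at hτ
    exact Subgroup.mem_bot.mp hτ

end Fermat.Agent.Lib.Ram.Minkowski
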