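/-
Proof of the bridge hypothesis `Fermat.Agent.S14.NFGlue.InertiaLifts` (owner: helper79).

Every element of the (ideal-theoretic) inertia group of a nonzero prime `P` of a finite Galois
`M/ℚ` inside `ℚ̄` is the restriction of an element of the inertia group of some valuation subring
of `ℚ̄` lying over a prime number.

Ingredients: `Lib/Ram/Minkowski.exists_valuationSubring_mem_inertiaSubgroupIn` (ideal inertia of `P`
is contained in the inertia of the localisation of `𝓞 M` at `P`), and `Lib/InertiaRestrict`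
(`exists_comap_eq`, `exists_mem_inertia`: inertia groups surject under restriction).
-/
import Mathlib
import Fermat.Agent.S14.NFGlue
import Fermat.Agent.Lib.InertiaRestrict
import Fermat.Agent.Lib.Ram.Minkowski

set_option autoImplicit false
set_option linter.style.haveILetI false

open NumberField
open scoped Pointwise

namespace Fermat.Agent.Lib.Ram.InertiaLifts

open Fermat.Agent.Lib.InertiaRestrict

/-- A nonzero prime of the ring of integers of a number field contains a prime number. -/
theorem exists_prime_mem (M : Type*) [Field M] [NumberField M] (P : Ideal (𝓞 M)) [hP : P.IsPrime]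
    (hP0 : P ≠ ⊥) : ∃ ℓ : ℕ, ℓ.Prime ∧ ((ℓ : ℤ) : 𝓞 M) ∈ P := by
  have hpr : (P.under ℤ).IsPrime := inferInstance
  have hne : P.under ℤ ≠ ⊥ := by
    intro h
    exact hP0 (Ideal.eq_bot_of_comap_eq_bot h)
  obtain ⟨g, hg⟩ := (IsPrincipalIdealRing.principal (P.under ℤ)).principal
  have hg0 : g ≠ 0 := by
    rintro rfl
    apply hne
    rw [hg]
    simp
  have hgp : Prime g := by
    rw [← Ideal.span_singleton_prime hg0, ← Ideal.submodule_span_eq, ← hg]
    exact hpr
  refine ⟨g.natAbs, Int.prime_iff_natAbs_prime.mp hgp, ?_⟩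
  have h1 : (g.natAbs : ℤ) ∈ P.under ℤ := by
    rw [hg]
    refine Ideal.mem_span_singleton.mpr ?_
    exact Int.dvd_natAbs_self
  have h2 := Ideal.mem_comap.mp h1
  simpa using h2

/-- **The bridge `InertiaLifts` holds.** -/
theorem inertiaLifts : Fermat.Agent.S14.NFGlue.InertiaLifts := by
  intro M _ _ P hP hP0 g hg
  haveI : P.IsPrime := hP
  haveI : IsGalois ℚ (AlgebraicClosure ℚ) :=
    Fermat.Agent.Lib.Frobenius.isGalois_algebraicClosure_rat
  haveI : NumberField M := { to_charZero := inferInstance, to_finiteDimensional := inferInstance }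
  obtain ⟨ℓ, hℓ, hℓP⟩ := exists_prime_mem M P hP0
  obtain ⟨B, hBℓ, hgB⟩ :=
    Fermat.Agent.Lib.Ram.Minkowski.exists_valuationSubring_mem_inertiaSubgroupIn M ℓ hℓ P hℓP g
      (fun x => hg x)
  obtain ⟨A, hA⟩ := exists_comap_eq (algebraMap M (AlgebraicClosure ℚ)) B
  have hAℓ : A.LiesOverPrime ℓ := by
    have h1 : (ℓ : M) ∈ (A.comap (algebraMap M (AlgebraicClosure ℚ))).nonunits := by
      rw [hA]; exact hBℓ
    rw [mem_nonunits_comap_iff] at h1
    simpa [ValuationSubring.LiesOverPrime] using h1
  obtain ⟨σ, hσ, hσg⟩ := exists_mem_inertia M A g (by rw [hA]; exact hgB)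
  exact ⟨ℓ, A, σ, hℓ, hAℓ, hσ, hσg⟩

end Fermat.Agent.Lib.Ram.InertiaLifts
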